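import Fermat.Agent.EC.Coeff.Out
import Fermat.Agent.EC.Good.MainStar
import Fermat.Agent.EC.HW.Export

/-!
# Program E (S58), block COEFF: the block contract `CoeffOut`, hypothesis-free

* `starExport` : `Good.StarRes.StarExport`, the export (★) of the block HW
  (`HW.Export.star`, the Hasse–Weil kernel count) in the shape GOOD consumes;
* **`coeffOut`** : `Final.Contracts.CoeffOut` = `Out.coeffOut_of_good` at GOOD's
  `MainStar.good_eigen_all starExport` (G-iv ∧ G-v of the binder map).
-/

set_option autoImplicit false

namespace Fermat.Agent.EC.Coeff.Done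

/-- The export (★) of the block HW, in the literal shape `StarRes.StarExport`. -/
theorem starExport : Fermat.Agent.EC.Good.StarRes.StarExport :=
  fun F k _ _ _ _ _ _ W hΔ n _ hlam hlamF =>
    Fermat.Agent.EC.HW.Export.star F k W hΔ n hlam hlamF

/-- **(COEFF) the block contract `CoeffOut`.** -/
theorem coeffOut : Fermat.Agent.EC.Final.Contracts.CoeffOut := by
  classical
  exact Fermat.Agent.EC.Coeff.Out.coeffOut_of_good
    (Fermat.Agent.EC.Good.MainStar.good_eigen_all starExport)

end Fermat.Agent.EC.Coeff.Done
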