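import Mathlib

/-!
# Program E (S58), block COEFF: primes at which the Frobenius polynomial of a good prime splits

For an integer `a` and a prime `ℓ` the polynomial `X ^ 2 - a X + ℓ` has, for infinitely many primes
`p`, two DISTINCT roots `n`, `a - n` modulo `p` (Schur's argument on the values at the multiples of
`ℓ ∏ T`; the discriminant `a ^ 2 - 4 ℓ` is never `0`).

* `disc_ne_zero` : `a ^ 2 - 4 ℓ ≠ 0`;
* `exists_prime_dvd_eval` : a prime `p ∉ T`, `p ≠ ℓ` dividing a value `n ^ 2 - a n + ℓ`;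
* `exists_split_prime` : moreover `p ∤ 2 n - a`, i.e. the two roots `n`, `a - n` are distinct
  modulo `p`.
-/

set_option autoImplicit false

namespace Fermat.Agent.EC.Coeff.SplitPrime

/-- The discriminant of the Frobenius polynomial at a prime is not zero. -/
theorem disc_ne_zero (a : ℤ) {ℓ : ℕ} (hℓ : ℓ.Prime) : a ^ 2 - 4 * (ℓ : ℤ) ≠ 0 := by
  intro h
  have hℓZ : Prime (ℓ : ℤ) := Nat.prime_iff_prime_int.mp hℓ
  have h1 : a ^ 2 = 4 * (ℓ : ℤ) := by linarith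
  have h2 : (ℓ : ℤ) ∣ a ^ 2 := ⟨4, by rw [h1]; ring⟩
  have h3 : (ℓ : ℤ) ∣ a := hℓZ.dvd_of_dvd_pow h2
  obtain ⟨b, rfl⟩ := h3
  have hℓ0 : (ℓ : ℤ) ≠ 0 := hℓZ.ne_zero
  have h4 : (ℓ : ℤ) * b ^ 2 = 4 := by
    have : (ℓ : ℤ) * ((ℓ : ℤ) * b ^ 2) = (ℓ : ℤ) * 4 := by linear_combination h1
    exact mul_left_cancel₀ hℓ0 this
  have h5 : (ℓ : ℤ) ∣ 4 := ⟨b ^ 2, h4.symm⟩
  have h6 : ℓ ∣ 4 := by exact_mod_cast h5
  have h7 : ℓ ∣ 2 ^ 2 := by simpa using h6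
  have h8 : ℓ ∣ 2 := hℓ.dvd_of_dvd_pow h7
  have h9 : ℓ = 2 := (Nat.prime_dvd_prime_iff_eq hℓ Nat.prime_two).mp h8
  subst h9
  have h10 : b ^ 2 = 2 := by
    have : (2 : ℤ) * b ^ 2 = 2 * 2 := by push_cast at h4; linarith
    exact mul_left_cancel₀ two_ne_zero this
  have h11 : b.natAbs ^ 2 = 2 := by
    have := congrArg Int.natAbs h10
    rwa [Int.natAbs_pow] at this
  have h12 : b.natAbs < 2 := by
    by_contra hge
    have hge' : 2 ≤ b.natAbs := Nat.le_of_not_lt hge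
    have : 2 ^ 2 ≤ b.natAbs ^ 2 := Nat.pow_le_pow_left hge' 2
    omega
  interval_cases b.natAbs <;> omega

/-- **Schur**: a prime outside a finite set and different from `ℓ` dividing a value of
`n ^ 2 - a n + ℓ`. -/
theorem exists_prime_dvd_eval (a : ℤ) {ℓ : ℕ} (hℓ : ℓ.Prime) (T : Finset ℕ) :
    ∃ (p : ℕ) (n : ℤ), p.Prime ∧ p ∉ T ∧ p ≠ ℓ ∧ (p : ℤ) ∣ n ^ 2 - a * n + (ℓ : ℤ) := by
  classical
  set S : Finset ℕ := (insert ℓ T).filter (· ≠ 0) with hS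
  set Q : ℕ := ∏ t ∈ S, t with hQ
  have hQpos : 0 < Q := Finset.prod_pos fun t ht => Nat.pos_of_ne_zero (Finset.mem_filter.mp ht).2
  have hdvdQ : ∀ t ∈ insert ℓ T, t ≠ 0 → t ∣ Q := fun t ht h0 =>
    Finset.dvd_prod_of_mem _ (Finset.mem_filter.mpr ⟨ht, h0⟩)
  set m : ℤ := (a.natAbs : ℤ) + 1 with hm
  have hm1 : 1 ≤ m := by
    rw [hm]
    have : (0 : ℤ) ≤ (a.natAbs : ℤ) := Int.natCast_nonneg _
    omega
  have ham : a < m := by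
    rw [hm]
    have := Int.le_natAbs (a := a)
    omega
  set u : ℤ := (Q : ℤ) * m with hu
  have hQ1 : (1 : ℤ) ≤ (Q : ℤ) := by exact_mod_cast hQpos
  have hu1 : 1 ≤ u := by rw [hu]; nlinarith
  have hum : m ≤ u := by rw [hu]; nlinarith
  have hℓ2 : (2 : ℤ) ≤ (ℓ : ℤ) := by exact_mod_cast hℓ.two_le
  set h : ℤ := u * ((ℓ : ℤ) * u - a) + 1 with hh
  have hpos : 2 ≤ h := by
    have h1 : 1 ≤ (ℓ : ℤ) * u - a := by nlinarith
    rw [hh]; nlinarith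
  have hnat : 2 ≤ h.natAbs := by
    have : (2 : ℤ) ≤ (h.natAbs : ℤ) := by rw [Int.natCast_natAbs, abs_of_nonneg (by linarith)]; exact hpos
    exact_mod_cast this
  obtain ⟨p, hp, hph⟩ := Nat.exists_prime_and_dvd (n := h.natAbs) (by omega)
  have hphZ : (p : ℤ) ∣ h := Int.natCast_dvd.mpr hph
  have hpQ : ¬ p ∣ Q := by
    intro hd
    have h1 : (p : ℤ) ∣ (Q : ℤ) := by exact_mod_cast hd
    have h2 : (p : ℤ) ∣ u * ((ℓ : ℤ) * u - a) := by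
      rw [hu, mul_assoc]; exact Dvd.dvd.mul_right h1 _
    have h3 : (p : ℤ) ∣ 1 := by
      have := dvd_sub hphZ h2
      rwa [hh, add_sub_cancel_left] at this
    have h4 : p ∣ 1 := by exact_mod_cast h3
    exact hp.one_lt.ne' (Nat.dvd_one.mp h4)
  refine ⟨p, (ℓ : ℤ) * u, hp, ?_, ?_, ?_⟩
  · intro hT
    exact hpQ (hdvdQ p (Finset.mem_insert_of_mem hT) hp.ne_zero)
  · rintro rfl
    exact hpQ (hdvdQ p (Finset.mem_insert_self _ _) hp.ne_zero)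
  · have : ((ℓ : ℤ) * u) ^ 2 - a * ((ℓ : ℤ) * u) + (ℓ : ℤ) = (ℓ : ℤ) * h := by rw [hh]; ring
    rw [this]
    exact Dvd.dvd.mul_left hphZ _

/-- **The Frobenius polynomial `X ^ 2 - a X + ℓ` splits with distinct roots modulo infinitely many
primes**: `p ∉ T`, `p ≠ ℓ`, `n` and `a - n` are roots modulo `p` and `n ≢ a - n`. -/
theorem exists_split_prime (a : ℤ) {ℓ : ℕ} (hℓ : ℓ.Prime) (T : Finset ℕ) :
    ∃ (p : ℕ) (n : ℤ), p.Prime ∧ p ∉ T ∧ p ≠ ℓ ∧ (p : ℤ) ∣ n ^ 2 - a * n + (ℓ : ℤ) ∧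
      (p : ℤ) ∣ (a - n) ^ 2 - a * (a - n) + (ℓ : ℤ) ∧ ¬ (p : ℤ) ∣ n - (a - n) := by
  classical
  have hD := disc_ne_zero a hℓ
  obtain ⟨p, n, hp, hpT, hpℓ, hdvd⟩ :=
    exists_prime_dvd_eval a hℓ (T ∪ (a ^ 2 - 4 * (ℓ : ℤ)).natAbs.primeFactors)
  have hpT' : p ∉ T := fun h => hpT (Finset.mem_union_left _ h)
  have hpD : ¬ (p : ℤ) ∣ a ^ 2 - 4 * (ℓ : ℤ) := by
    intro hd
    apply hpT
    refine Finset.mem_union_right _ (Nat.mem_primeFactors.mpr ⟨hp, ?_, ?_⟩)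
    · exact Int.natCast_dvd.mp hd
    · exact Int.natAbs_ne_zero.mpr hD
  refine ⟨p, n, hp, hpT', hpℓ, hdvd, ?_, ?_⟩
  · have : (a - n) ^ 2 - a * (a - n) + (ℓ : ℤ) = n ^ 2 - a * n + (ℓ : ℤ) := by ring
    rw [this]; exact hdvd
  · intro hd
    apply hpD
    have h1 : a ^ 2 - 4 * (ℓ : ℤ) = (n - (a - n)) ^ 2 - 4 * (n ^ 2 - a * n + (ℓ : ℤ)) := by ring
    rw [h1]
    exact dvd_sub (Dvd.dvd.pow hd two_ne_zero) (Dvd.dvd.mul_left hdvd _)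

end Fermat.Agent.EC.Coeff.SplitPrime
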