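import Fermat.Agent.BR2.StrongMultOne
import Fermat.Agent.EC.Coeff.SplitPrime

/-!
# Program E (S58), block COEFF: the Hecke eigenvalue at a good prime dividing the level

`W` an integral Weierstrass model, `g` a normalized eigenform of level `M` whose eigenvalues are
`a_r(g) = a_r(W)` at all primes `r` outside a finite set `T` (all good for `W`, prime to `M`).
Then `a_ℓ(g) = a_ℓ(W)` at EVERY prime `ℓ ∤ M` of good reduction.

The elliptic-curve input is the **Frobenius eigenvalue criterion** `FrobEigen W` (Hasse–Weil in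
kernel-count form (★), transported to `ℚ̄` by the reduction of torsion points; blocks HW8 + GOOD):
for a good prime `l`, a prime `p ≠ l`, a Frobenius element `φ` at a place of `ℚ̄` over `l` and an
integer `n`,

  `(∃ P ≠ 0, p • P = 0 ∧ φ • P = n • P) ↔ p ∣ n ^ 2 - a_l(W) n + l`.

Proof (the (N5) pattern of `BR2/StrongMultOne`, points only on the `E`-side).  If
`x := a_ℓ(g) - a_ℓ(W) ≠ 0`, it divides a nonzero integer `c`.  Pick a prime `p ∤ c`, `p ∉ T`,
`p ≠ ℓ` at which `X ^ 2 - a_ℓ(W) X + ℓ` has two distinct roots `n`, `n'` (`SplitPrime`), a residue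
map `φ : ℤ̄ → k` of characteristic `p` and the residual representation `ρ` of `g` (S29).  Let `σ`
be a Frobenius element at `ℓ`.  (★ ⇐) gives `p`-torsion points `P`, `P'` with `σ P = n P`,
`σ P' = n' P'`.  By Chebotarev `σ` agrees, on the finite extension generated by the level of `ρ`
and the coordinates of `P`, `P'`, with a Frobenius element `ψ` at a prime `r ∉ T ∪ {p}`; so
`ψ P = n P`, `ψ P' = n' P'`, and (★ ⇒) at `r` shows that `n`, `n'` are roots of
`X ^ 2 - a_r(W) X + r` modulo `p`: `a_r(W) ≡ n + n' = a_ℓ(W)`.  On the other side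
`φ(a_ℓ(g)) = tr ρ(σ) = tr ρ(ψ) = φ(a_r(g)) = a_r(W) = a_ℓ(W)` in `k`, i.e. `φ x = 0`:
contradiction with `p ∤ c`.

* `FrobEigen` : the criterion;
* `exists_ringHom_of_not_dvd` : a residue map of `ℤ̄` of given characteristic `p ∤ c` not killing a
  divisor of `c`;
* `smul_eq_smul_of_coords` : two automorphisms agreeing on the coordinates of a point move it in
  the same way;
* **`qCoeff_eq_apOfModel`** : the theorem.
-/

set_option autoImplicit false
set_option linter.style.haveILetI false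
set_option linter.unusedSectionVars false

open Polynomial WeierstrassCurve WeierstrassCurve.Affine
open scoped WeierstrassCurve.Affine

namespace Fermat.Agent.EC.Coeff.Main

set_option quotPrecheck false in
local notation "Zb" => ↥(integralClosure ℤ ℂ)
local notation "Qb" => AlgebraicClosure ℚ
local notation "GQ" => (AlgebraicClosure ℚ ≃ₐ[ℚ] AlgebraicClosure ℚ)

/-! ### the Frobenius eigenvalue criterion -/

section Criterion

variable [DecidableEq Qb]

/-- **The Frobenius eigenvalue criterion** (Hasse–Weil in kernel-count form over `ℚ̄`): at a good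
prime `l`, for a prime `p ≠ l`, a Frobenius element `φ` at a place over `l` has the eigenvalue `n`
on a nonzero `p`-torsion point iff `p ∣ n ^ 2 - a_l(W) n + l`. -/
def FrobEigen (W : WeierstrassCurve ℤ) : Prop :=
  ∀ {l p : ℕ}, l.Prime → p.Prime → l ≠ p → W.IsGoodPrimeFor l →
    ∀ (A : ValuationSubring Qb), A.LiesOverPrime l → ∀ φ : GQ, A.IsFrobeniusAt φ l → ∀ n : ℤ,
      (∃ P : ((W.map (Int.castRingHom ℚ))⁄Qb).Point, P ≠ 0 ∧ (p : ℤ) • P = 0 ∧ φ • P = n • P) ↔
        (p : ℤ) ∣ n ^ 2 - W.apOfModel l * n + (l : ℤ)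

end Criterion

/-! ### residue maps of `ℤ̄` of a given characteristic -/

/-- A residue map of `ℤ̄` of characteristic `p` which does not kill a given divisor `x` of an
integer `c` prime to `p`. -/
theorem exists_ringHom_of_not_dvd {x : Zb} {c : ℤ} (hxc : x ∣ algebraMap ℤ Zb c) {p : ℕ}
    (hp : p.Prime) (hpc : ¬ (p : ℤ) ∣ c) :
    ∃ (k : Type) (_ : Field k) (_ : CharP k p) (φ : Zb →+* k), φ x ≠ 0 := by
  have hpZ : Prime (p : ℤ) := Nat.prime_iff_prime_int.mp hp
  haveI hmax : (Ideal.span {(p : ℤ)}).IsMaximal :=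
    PrincipalIdealRing.isMaximal_of_irreducible hpZ.irreducible
  have hker : RingHom.ker (algebraMap ℤ Zb) ≤ Ideal.span {(p : ℤ)} := by
    have hinj : Function.Injective (algebraMap ℤ Zb) := (algebraMap ℤ Zb).injective_int
    rw [(RingHom.injective_iff_ker_eq_bot _).mp hinj]
    exact bot_le
  obtain ⟨Q, hQmax, hQ⟩ :=
    Ideal.exists_ideal_over_maximal_of_isIntegral (S := Zb) (Ideal.span {(p : ℤ)}) hker
  haveI := hQmax
  letI : Field (Zb ⧸ Q) := Ideal.Quotient.field Q
  have hp0 : ((p : ℕ) : Zb ⧸ Q) = 0 := by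
    have h1 : ((p : ℕ) : Zb ⧸ Q) = Ideal.Quotient.mk Q (algebraMap ℤ Zb (p : ℤ)) := by simp
    rw [h1, Ideal.Quotient.eq_zero_iff_mem]
    have h2 : (p : ℤ) ∈ Q.comap (algebraMap ℤ Zb) := by
      rw [hQ]
      exact Ideal.mem_span_singleton_self _
    exact h2
  have hchar : CharP (Zb ⧸ Q) p := ringChar.of_eq (CharP.ringChar_of_prime_eq_zero hp hp0)
  refine ⟨Zb ⧸ Q, inferInstance, hchar, Ideal.Quotient.mk Q, ?_⟩
  intro h0
  rw [Ideal.Quotient.eq_zero_iff_mem] at h0
  have h1 : algebraMap ℤ Zb c ∈ Q := Q.mem_of_dvd hxc h0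
  have h2 : c ∈ Q.comap (algebraMap ℤ Zb) := h1
  rw [hQ, Ideal.mem_span_singleton] at h2
  exact hpc h2

/-! ### the coordinates of a point -/

section Coords

variable [DecidableEq Qb] {E : WeierstrassCurve ℚ}

/-- the set of the affine coordinates of a point -/
def coords : (E⁄Qb).Point → Set Qb
  | .zero => ∅
  | .some (x := x) (y := y) _ => {x, y}

theorem finite_coords (P : (E⁄Qb).Point) : (coords P).Finite := by
  rcases P with _ | ⟨x, y, h⟩
  · exact Set.finite_empty
  · exact (Set.finite_singleton y).insert x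

/-- Two automorphisms agreeing on the coordinates of a point move it in the same way. -/
theorem smul_eq_smul_of_coords (σ ψ : GQ) (P : (E⁄Qb).Point)
    (h : ∀ z ∈ coords P, σ z = ψ z) : σ • P = ψ • P := by
  rcases P with _ | ⟨x, y, hxy⟩
  · rfl
  · have hx : σ x = ψ x := h x (by simp [coords])
    have hy : σ y = ψ y := h y (by simp [coords])
    rw [Point.algEquiv_smul_def, Point.algEquiv_smul_def, Point.map_some, Point.map_some]
    congr 1

/-- The field generated by the coordinates of two points is a finite extension of `ℚ`. -/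
theorem finiteDimensional_adjoin_coords (P P' : (E⁄Qb).Point) :
    FiniteDimensional ℚ ↥(IntermediateField.adjoin ℚ (coords P ∪ coords P')) := by
  have hfin : (coords P ∪ coords P').Finite := (finite_coords P).union (finite_coords P')
  haveI : Finite ↥(coords P ∪ coords P') := hfin
  apply IntermediateField.finiteDimensional_adjoin
  intro z _
  exact ((AlgebraicClosure.isAlgebraic ℚ).isAlgebraic z).isIntegral

end Coords

/-! ### the theorem -/

section Theorem

variable [DecidableEq Qb]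

/-- **(COEFF) The Hecke eigenvalue at a good prime**: a normalized eigenform `g` of level `M`
with `a_r(g) = a_r(W)` at all primes outside a finite set `T` has `a_ℓ(g) = a_ℓ(W)` at every
prime `ℓ ∤ M` of good reduction of `W`. -/
theorem qCoeff_eq_apOfModel (W : WeierstrassCurve ℤ) (hFE : FrobEigen W) {M : ℕ}
    {g : CuspForm (CongruenceSubgroup.Gamma0 M) 2} (hg : g.IsNormalizedEigenform)
    (T : Finset ℕ)
    (hT : ∀ r : ℕ, r.Prime → r ∉ T → W.IsGoodPrimeFor r ∧ ¬ r ∣ M ∧
      ModularFormClass.qCoeff g r = (W.apOfModel r : ℂ))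
    {ℓ : ℕ} (hℓ : ℓ.Prime) (hgood : W.IsGoodPrimeFor ℓ) (hℓM : ¬ ℓ ∣ M) :
    ModularFormClass.qCoeff g ℓ = (W.apOfModel ℓ : ℂ) := by
  obtain ⟨a, ha⟩ := Fermat.Agent.BR2.StrongMultOne.exists_integral_qCoeff hg hℓ hℓM
  by_contra hne
  have hx : a - algebraMap ℤ Zb (W.apOfModel ℓ) ≠ 0 := by
    intro h0
    apply hne
    rw [← ha, sub_eq_zero.mp h0]
    simp
  obtain ⟨c, hc, hxc⟩ := Fermat.Agent.BR2.StrongMultOne.exists_int_dvd hx
  -- the prime `p`
  obtain ⟨p, n, hp, hpT, hpℓ, hd1, hd2, hdist⟩ :=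
    SplitPrime.exists_split_prime (W.apOfModel ℓ) hℓ (T ∪ c.natAbs.primeFactors)
  have hpT' : p ∉ T := fun h => hpT (Finset.mem_union_left _ h)
  have hpc : ¬ (p : ℤ) ∣ c := by
    intro hd
    apply hpT
    exact Finset.mem_union_right _
      (Nat.mem_primeFactors.mpr ⟨hp, Int.natCast_dvd.mp hd, Int.natAbs_ne_zero.mpr hc⟩)
  obtain ⟨k, _, _, φ, hφ⟩ := exists_ringHom_of_not_dvd hxc hp hpc
  obtain ⟨ρ, hρ, -⟩ := Fermat.Agent.S29.result hg hp φ
  obtain ⟨L₁, hL₁, h₁⟩ := ρ.factorsThroughFiniteLevel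
  -- the Frobenius element at `ℓ` and its two eigenvectors
  obtain ⟨A, hA, σ, hσ⟩ := Fermat.Agent.S54.FrobExists.exists_isFrobeniusAt ℓ hℓ
  obtain ⟨P, hP0, hpP, hσP⟩ := (hFE hℓ hp hpℓ.symm hgood A hA σ hσ n).mpr hd1
  obtain ⟨P', hP0', hpP', hσP'⟩ :=
    (hFE hℓ hp hpℓ.symm hgood A hA σ hσ (W.apOfModel ℓ - n)).mpr hd2
  -- Chebotarev
  haveI := hL₁
  haveI := finiteDimensional_adjoin_coords P P'
  have hL : FiniteDimensional ℚ
      ↥(L₁ ⊔ IntermediateField.adjoin ℚ (coords P ∪ coords P')) :=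
    IntermediateField.finiteDimensional_sup _ _
  obtain ⟨r, hr, hrT, B, ψ, hB, hψ, hσψ⟩ :=
    Fermat.Agent.Cheb.chebExact _ hL σ (T ∪ {p})
  have hrT' : r ∉ T := fun h => hrT (Finset.mem_union_left _ h)
  have hrp : r ≠ p := fun h => hrT (Finset.mem_union_right _ (by rw [h]; exact Finset.mem_singleton_self p))
  obtain ⟨hrgood, hrM, hqr⟩ := hT r hr hrT'
  -- `ψ` has the same eigenvectors
  have hcoordsP : ∀ z ∈ coords P, σ z = ψ z := fun z hz =>
    hσψ z (le_sup_right (a := L₁)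
      (IntermediateField.subset_adjoin ℚ _ (Set.mem_union_left _ hz)))
  have hcoordsP' : ∀ z ∈ coords P', σ z = ψ z := fun z hz =>
    hσψ z (le_sup_right (a := L₁)
      (IntermediateField.subset_adjoin ℚ _ (Set.mem_union_right _ hz)))
  have hψP : ψ • P = n • P := (smul_eq_smul_of_coords σ ψ P hcoordsP).symm.trans hσP
  have hψP' : ψ • P' = (W.apOfModel ℓ - n) • P' :=
    (smul_eq_smul_of_coords σ ψ P' hcoordsP').symm.trans hσP'
  have hr1 := (hFE hr hp hrp hrgood B hB ψ hψ n).mp ⟨P, hP0, hpP, hψP⟩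
  have hr2 := (hFE hr hp hrp hrgood B hB ψ hψ (W.apOfModel ℓ - n)).mp ⟨P', hP0', hpP', hψP'⟩
  -- `a_r(W) ≡ a_ℓ(W)` modulo `p`
  have hpZ : Prime (p : ℤ) := Nat.prime_iff_prime_int.mp hp
  have hcong : (p : ℤ) ∣ W.apOfModel ℓ - W.apOfModel r := by
    have h3 : (p : ℤ) ∣ (n - (W.apOfModel ℓ - n)) * (W.apOfModel ℓ - W.apOfModel r) := by
      have := dvd_sub hr1 hr2
      have h4 : n ^ 2 - W.apOfModel r * n + (r : ℤ) -
          ((W.apOfModel ℓ - n) ^ 2 - W.apOfModel r * (W.apOfModel ℓ - n) + (r : ℤ)) =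
          (n - (W.apOfModel ℓ - n)) * (W.apOfModel ℓ - W.apOfModel r) := by ring
      rwa [h4] at this
    exact (hpZ.dvd_or_dvd h3).resolve_left hdist
  -- the `g`-side
  have hρσψ : ρ.ρ σ = ρ.ρ ψ := by
    have h1 : ρ.ρ (ψ⁻¹ * σ) = 1 := h₁ _ fun x hx => by
      rw [AlgEquiv.mul_apply, hσψ x (le_sup_left (b := IntermediateField.adjoin ℚ
        (coords P ∪ coords P')) hx)]
      exact ψ.symm_apply_apply x
    have h2 : σ = ψ * (ψ⁻¹ * σ) := by rw [mul_inv_cancel_left]
    rw [h2, map_mul, h1, mul_one]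
  have hcast : ∀ s : ℕ, s.Prime → s ≠ p → (s : k) ≠ 0 := by
    intro s hs hsp h0
    have h1 : p ∣ s := (CharP.cast_eq_zero_iff k p s).mp h0
    exact hsp ((Nat.prime_dvd_prime_iff_eq hp hs).mp h1).symm
  obtain ⟨b, hb, hcb⟩ := hρ ℓ hℓ hℓM (hcast ℓ hℓ hpℓ.symm) A hA σ hσ
  obtain ⟨b', hb', hcb'⟩ := hρ r hr hrM (hcast r hr hrp) B hB ψ hψ
  have hba : b = a := Subtype.ext (hb.trans ha.symm)
  have hba' : b' = algebraMap ℤ Zb (W.apOfModel r) := by
    apply Subtype.ext
    rw [hb', hqr]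
    simp
  rw [hρσψ, hcb', hba'] at hcb
  have h1 := congrArg (fun Q : k[X] => Q.coeff 1) hcb
  rw [Fermat.Agent.BR2.StrongMultOne.coeff_one_quadratic,
    Fermat.Agent.BR2.StrongMultOne.coeff_one_quadratic, hba] at h1
  have h2 : φ a = φ (algebraMap ℤ Zb (W.apOfModel r)) := (neg_injective h1).symm
  apply hφ
  rw [map_sub, h2, ← map_sub, ← map_sub]
  obtain ⟨d, hd⟩ := hcong
  have h5 : W.apOfModel r - W.apOfModel ℓ = (p : ℤ) * (-d) := by linarith
  rw [h5, map_mul, map_mul]
  have hp0 : φ (algebraMap ℤ Zb (p : ℤ)) = 0 := by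
    have : φ (algebraMap ℤ Zb (p : ℤ)) = ((p : ℕ) : k) := by simp
    rw [this]
    exact CharP.cast_eq_zero k p
  rw [hp0, zero_mul]

end Theorem

end Fermat.Agent.EC.Coeff.Main
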