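import Fermat.Agent.EC.Coeff.Main
import Fermat.Agent.EC.Final.Contracts

/-!
# Program E (S58), block COEFF: the block contract `CoeffOut` from the Frobenius eigenvalue criterion

* `frobEigen_of_nsmul` : `Main.FrobEigen W` from the criterion in the literal shape G-iv ∧ G-v of the
  binder map (finding #1384: `lam • P = 0` with the `ℕ`-action);
* **`coeffOut_of_frobEigen`** : `Final.Contracts.CoeffOut` from `FrobEigen W` for every integral
  Weierstrass model `W` with `Δ ≠ 0` (`T := N.primeFactors` in `Main.qCoeff_eq_apOfModel`; a good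
  prime does not divide a divisor `M` of `rad |Δ|`);
* `coeffOut_of_good` : the same from G-iv ∧ G-v.
-/

set_option autoImplicit false
set_option linter.style.haveILetI false
set_option linter.unusedSectionVars false

open WeierstrassCurve WeierstrassCurve.Affine
open scoped WeierstrassCurve.Affine

namespace Fermat.Agent.EC.Coeff.Out

open Fermat.Agent.EC.Coeff.Main Fermat.Agent.EC.Final.Contracts

local notation "Qb" => AlgebraicClosure ℚ
local notation "GQ" => (AlgebraicClosure ℚ ≃ₐ[ℚ] AlgebraicClosure ℚ)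

variable [DecidableEq Qb]

/-- The criterion in the literal shape G-iv ∧ G-v of the binder map (`ℕ`-action in `lam • P = 0`)
gives `FrobEigen W`. -/
theorem frobEigen_of_nsmul (W : WeierstrassCurve ℤ)
    (h : ∀ {l lam : ℕ}, l.Prime → lam.Prime → l ≠ lam → W.IsGoodPrimeFor l →
      ∀ (A : ValuationSubring Qb), A.LiesOverPrime l → ∀ φ : GQ, A.IsFrobeniusAt φ l → ∀ n : ℤ,
        (∃ P : ((W.map (Int.castRingHom ℚ))⁄Qb).Point, P ≠ 0 ∧ lam • P = 0 ∧ φ • P = n • P) ↔
          (lam : ℤ) ∣ n ^ 2 - W.apOfModel l * n + (l : ℤ)) :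
    FrobEigen W := by
  intro l p hl hp hlp hgood A hA φ hφ n
  rw [← h hl hp hlp hgood A hA φ hφ n]
  constructor
  · rintro ⟨P, hP0, hpP, hφP⟩
    exact ⟨P, hP0, by rwa [natCast_zsmul] at hpP, hφP⟩
  · rintro ⟨P, hP0, hpP, hφP⟩
    exact ⟨P, hP0, by rwa [natCast_zsmul], hφP⟩

/-- **(COEFF) the block contract `CoeffOut`** from the Frobenius eigenvalue criterion. -/
theorem coeffOut_of_frobEigen
    (hFE : ∀ W : WeierstrassCurve ℤ, W.Δ ≠ 0 → FrobEigen W) : CoeffOut := by
  intro W _ hΔ N hN0 hbad M hMN hMC g hg hcoef ℓ hℓ hgood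
  refine qCoeff_eq_apOfModel W (hFE W hΔ) hg.1 N.primeFactors ?_ hℓ hgood ?_
  · intro r hr hrT
    have hrN : ¬ r ∣ N := fun hd => hrT (Nat.mem_primeFactors.mpr ⟨hr, hd, hN0⟩)
    exact ⟨fun hd => hrN (hbad r hr hd), fun hd => hrN (hd.trans hMN), hcoef r hr hrN⟩
  · intro hd
    exact hgood ((W.prime_dvd_conductorLevel_iff hΔ hℓ).mp (hd.trans hMC))

/-- `CoeffOut` from G-iv ∧ G-v of the binder map. -/
theorem coeffOut_of_good
    (h : ∀ W : WeierstrassCurve ℤ, W.Δ ≠ 0 → ∀ {l lam : ℕ}, l.Prime → lam.Prime → l ≠ lam →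
      W.IsGoodPrimeFor l →
      ∀ (A : ValuationSubring Qb), A.LiesOverPrime l → ∀ φ : GQ, A.IsFrobeniusAt φ l → ∀ n : ℤ,
        (∃ P : ((W.map (Int.castRingHom ℚ))⁄Qb).Point, P ≠ 0 ∧ lam • P = 0 ∧ φ • P = n • P) ↔
          (lam : ℤ) ∣ n ^ 2 - W.apOfModel l * n + (l : ℤ)) : CoeffOut :=
  coeffOut_of_frobEigen fun W hΔ => frobEigen_of_nsmul W (h W hΔ)

end Fermat.Agent.EC.Coeff.Out
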